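import Mathlib
import Fermat.Prelude.Def_CuspForm_IntegralLattice
import Fermat.Prelude.Def_CuspForm_HeckeAlgebra
import Fermat.Prelude.Def_CuspForm_IntegralStructure
import Fermat.Prelude.Thm_CuspForm_intLattice_fg
import Fermat.Prelude.Thm_CuspForm_mem_intLattice_of_mem_heckeAlgebra
import Fermat.Prelude.Thm_CongruenceSubgroup_one_mem_strictPeriods_Gamma0
import Fermat.Prelude.Thm_ModularFormClass_qCoeff_heckeT
import Fermat.Prelude.Thm_ModularFormClass_qCoeff_heckeU
import Fermat.Prelude.Thm_UpperHalfPlane_eq_of_forall_qCoeff_eq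

/-!
# Coefficient functionals and Hecke duality in weight two

`coeffL` is the `n`-th q-coefficient as a linear functional and `heckeC` the `ℂ`-algebra of all
weight two Hecke operators. `exists_eigenform`: every character of `heckeC` is realised by a form
with `a₁ = 1`; `isNormalizedEigenform_of_eigen`: such a form is a normalised eigenform.
-/

set_option autoImplicit false

open CongruenceSubgroup UpperHalfPlane

namespace FLTAgent.Small2

variable {N : ℕ}

local notation "S₂" N => CuspForm (CongruenceSubgroup.Gamma0 N) 2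

lemma analytic0 (f : S₂ N) : AnalyticAt ℂ (cuspFunction 1 f) 0 :=
  ModularFormClass.analyticAt_cuspFunction_zero f one_pos
    (CongruenceSubgroup.one_mem_strictPeriods_Gamma0 N)

/-- The `n`-th coefficient as a linear functional. -/
noncomputable def coeffL (n : ℕ) : (S₂ N) →ₗ[ℂ] ℂ where
  toFun f := ModularFormClass.qCoeff f n
  map_add' f g := by
    simp only [ModularFormClass.qCoeff, FunLike.coe_add]
    rw [qExpansion_add (analytic0 f) (analytic0 g), map_add]
  map_smul' c f := by
    simp only [ModularFormClass.qCoeff, FunLike.coe_smul]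
    rw [qExpansion_smul (analytic0 f), PowerSeries.coeff_smul, RingHom.id_apply]

@[simp] lemma coeffL_zero_index (f : S₂ N) : coeffL 0 f = 0 :=
  CuspFormClass.qExpansion_coeff_zero f one_pos
    (CongruenceSubgroup.one_mem_strictPeriods_Gamma0 N)

lemma ext_coeff {f g : S₂ N} (h : ∀ n, coeffL n f = coeffL n g) : f = g := by
  have : Fact (IsCusp OnePoint.infty ((Gamma0 N : Subgroup (Matrix.SpecialLinearGroup (Fin 2) ℤ)).map
      (Matrix.SpecialLinearGroup.mapGL ℝ))) :=
    ⟨Subgroup.isCusp_of_mem_strictPeriods one_pos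
      (CongruenceSubgroup.one_mem_strictPeriods_Gamma0 N)⟩
  apply DFunLike.coe_injective
  exact UpperHalfPlane.eq_of_forall_qCoeff_eq
    (SlashInvariantFormClass.periodic_comp_ofComplex f
      (CongruenceSubgroup.one_mem_strictPeriods_Gamma0 N))
    (CuspFormClass.holo f)
    (ModularFormClass.bdd_at_infty f)
    (SlashInvariantFormClass.periodic_comp_ofComplex g
      (CongruenceSubgroup.one_mem_strictPeriods_Gamma0 N))
    (CuspFormClass.holo g)
    (ModularFormClass.bdd_at_infty g) h

lemma coeffL_T {p : ℕ} (hp : p.Prime) (hpN : ¬ p ∣ N) (f : S₂ N) (n : ℕ) :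
    coeffL n (CuspForm.heckeTLin 2 hp hpN f) =
      coeffL (p * n) f + (if p ∣ n then (p : ℂ) * coeffL (n / p) f else 0) := by
  change ModularFormClass.qCoeff (ModularForm.heckeT 2 p f) n = _
  rw [ModularFormClass.qCoeff_heckeT f (CongruenceSubgroup.one_mem_strictPeriods_Gamma0 N)
    hp.ne_zero, ModularForm.coeffHeckeT_apply, mul_comm n p]
  norm_num
  rfl

lemma coeffL_U [NeZero N] {p : ℕ} (hp : p.Prime) (hpN : p ∣ N) (f : S₂ N) (n : ℕ) :
    coeffL n (CuspForm.heckeULin 2 hpN f) = coeffL (p * n) f := by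
  change ModularFormClass.qCoeff (ModularForm.heckeU 2 p f) n = _
  rw [ModularFormClass.qCoeff_heckeU f (CongruenceSubgroup.one_mem_strictPeriods_Gamma0 N)
    hp.ne_zero, ModularForm.coeffHeckeU_apply, mul_comm n p]
  rfl

variable [NeZero N]

/-- The `ℂ`-algebra generated by all Hecke operators of weight two. -/
noncomputable def heckeC (N : ℕ) [NeZero N] : Subalgebra ℂ (Module.End ℂ (S₂ N)) :=
  Algebra.adjoin ℂ (CuspForm.heckeGenerators N 2 ∅)

lemma heckeAlgebra_subset_heckeC {t : Module.End ℂ (S₂ N)}
    (ht : t ∈ CuspForm.heckeAlgebra N 2 ∅) : t ∈ heckeC N := by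
  have : CuspForm.heckeAlgebra N 2 ∅ ≤ (heckeC N).restrictScalars ℤ :=
    Algebra.adjoin_le Algebra.subset_adjoin
  exact this ht

lemma heckeC_comm {s t : Module.End ℂ (S₂ N)} (hs : s ∈ heckeC N) (ht : t ∈ heckeC N) :
    s * t = t * s := by
  have : IsMulCommutative (heckeC N) := Algebra.isMulCommutative_adjoin ℂ
    fun _ hT _ hT' => CuspForm.commute_of_mem_heckeGenerators hT hT'
  exact congrArg Subtype.val (IsMulCommutative.is_comm.comm (⟨s, hs⟩ : heckeC N) ⟨t, ht⟩)

lemma eq_zero_of_coeffL_one {g : S₂ N}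
    (hg : ∀ t ∈ heckeC N, coeffL 1 (t g) = 0) : g = 0 := by
  apply ext_coeff
  intro n
  rw [map_zero]
  induction n using Nat.strong_induction_on generalizing g with
  | _ n ih =>
    match n with
    | 0 => simp
    | 1 => simpa using hg 1 (one_mem _)
    | n + 2 =>
      obtain ⟨p, hp, m, hm⟩ := Nat.exists_prime_and_dvd (n := n + 2) (by omega)
      have hm0 : 0 < m := Nat.pos_of_ne_zero fun h => by simp [h] at hm
      have hlt : m < n + 2 := hm ▸ lt_mul_of_one_lt_left hm0 hp.one_lt
      by_cases hpN : p ∣ N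
      · have hU : CuspForm.heckeULin 2 hpN ∈ heckeC N := Algebra.subset_adjoin
          (CuspForm.heckeULin_mem_heckeGenerators hp hpN (Set.notMem_empty p))
        have := ih m hlt (g := CuspForm.heckeULin 2 hpN g)
          fun t ht => hg (t * CuspForm.heckeULin 2 hpN) (mul_mem ht hU)
        rwa [coeffL_U hp, ← hm] at this
      · have hT : CuspForm.heckeTLin 2 hp hpN ∈ heckeC N := Algebra.subset_adjoin
          (CuspForm.heckeTLin_mem_heckeGenerators hp hpN (Set.notMem_empty p))
        have := ih m hlt (g := CuspForm.heckeTLin 2 hp hpN g)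
          fun t ht => hg (t * CuspForm.heckeTLin 2 hp hpN) (mul_mem ht hT)
        rw [coeffL_T, ← hm] at this
        split_ifs at this with hpm
        · rwa [ih (m / p) ((Nat.div_le_self m p).trans_lt hlt) hg, mul_zero, add_zero] at this
        · rwa [add_zero] at this

/-- Every character of the Hecke algebra is realised by a form with `a₁ = 1`. -/
lemma exists_eigenform [FiniteDimensional ℂ (S₂ N)] (ψ : heckeC N →ₐ[ℂ] ℂ) :
    ∃ g : S₂ N, coeffL 1 g = 1 ∧ ∀ t : heckeC N, (t : Module.End ℂ (S₂ N)) g = ψ t • g := by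
  let D : (S₂ N) →ₗ[ℂ] Module.Dual ℂ (heckeC N) :=
    LinearMap.mk₂ ℂ (fun g (t : heckeC N) => coeffL 1 ((t : Module.End ℂ (S₂ N)) g))
      (by intros; simp) (by intros; simp) (by intros; simp) (by intros; simp)
  have hD : Function.Injective D := by
    rw [injective_iff_map_eq_zero]
    intro g hg
    exact eq_zero_of_coeffL_one fun t ht => LinearMap.congr_fun hg ⟨t, ht⟩
  let E : heckeC N →ₗ[ℂ] Module.Dual ℂ (S₂ N) := D.flip
  have hE : Function.Injective E := by
    rw [injective_iff_map_eq_zero]
    intro t ht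
    apply Subtype.ext
    apply LinearMap.ext
    intro g
    refine eq_zero_of_coeffL_one fun s hs => ?_
    rw [← Module.End.mul_apply, heckeC_comm hs t.2, Module.End.mul_apply]
    exact LinearMap.congr_fun ht (s g)
  have hle : Module.finrank ℂ (heckeC N) ≤ Module.finrank ℂ (S₂ N) :=
    (LinearMap.finrank_le_finrank_of_injective hE).trans_eq Subspace.dual_finrank_eq
  have hsurj : Function.Surjective D :=
    (LinearMap.injective_iff_surjective_of_finrank_eq_finrank (by
      refine le_antisymm (LinearMap.finrank_le_finrank_of_injective hD) ?_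
      rw [Subspace.dual_finrank_eq]; exact hle)).1 hD
  obtain ⟨g, hg⟩ := hsurj ψ.toLinearMap
  have hev : ∀ t : heckeC N, coeffL 1 ((t : Module.End ℂ (S₂ N)) g) = ψ t :=
    fun t => LinearMap.congr_fun hg t
  refine ⟨g, by simpa using hev 1, fun s => ?_⟩
  rw [← sub_eq_zero]
  refine eq_zero_of_coeffL_one fun t ht => ?_
  have := hev (⟨t, ht⟩ * s)
  simp only [MulMemClass.coe_mul, Module.End.mul_apply, map_mul] at this
  rw [map_sub, map_sub, this, map_smul, map_smul, hev ⟨t, ht⟩, smul_eq_mul, mul_comm, sub_self]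

/-- An eigenvector of all Hecke operators with `a₁ = 1` is a normalised eigenform. -/
lemma isNormalizedEigenform_of_eigen {g : S₂ N} (h1 : coeffL 1 g = 1) (χ : ∀ p : ℕ, ℂ)
    (hT : ∀ p (hp : p.Prime) (hpN : ¬ p ∣ N), CuspForm.heckeTLin 2 hp hpN g = χ p • g)
    (hU : ∀ p (_ : p.Prime) (hpN : p ∣ N), CuspForm.heckeULin 2 hpN g = χ p • g) :
    g.IsNormalizedEigenform := by
  set b : ℕ → ℂ := fun n => coeffL n g with hb
  have b0 : b 0 = 0 := coeffL_zero_index g
  have recT : ∀ p : ℕ, p.Prime → ¬ p ∣ N → ∀ n,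
      b (p * n) = b p * b n - if p ∣ n then (p : ℂ) * b (n / p) else 0 := by
    intro p hp hpN
    have hc : ∀ n, b (p * n) + (if p ∣ n then (p : ℂ) * b (n / p) else 0) = χ p * b n := by
      intro n
      simp only [hb]
      rw [← coeffL_T hp hpN, hT p hp hpN, map_smul, smul_eq_mul]
    have hχ : χ p = b p := by
      have := hc 1
      rw [mul_one, if_neg hp.not_dvd_one, add_zero, show b 1 = 1 from h1, mul_one] at this
      exact this.symm
    intro n
    rw [← hχ, ← hc n]; ring
  have recU : ∀ p : ℕ, p.Prime → p ∣ N → ∀ n, b (p * n) = b p * b n := by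
    intro p hp hpN
    have hc : ∀ n, b (p * n) = χ p * b n := by
      intro n
      simp only [hb]
      rw [← coeffL_U hp hpN, hU p hp hpN, map_smul, smul_eq_mul]
    intro n
    rw [hc n, show b p = χ p by simpa [show b 1 = 1 from h1] using hc 1]
  refine ⟨h1, ?_, ?_, ?_⟩
  · intro m
    induction m using Nat.strong_induction_on with
    | _ m ih =>
      intro n hmn
      change b (m * n) = b m * b n
      match m, hmn, ih with
      | 0, _, _ => simp [b0]
      | 1, _, _ => simp [show b 1 = 1 from h1]
      | k + 2, hmn, ih =>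
        obtain ⟨p, hp, m', hm⟩ := Nat.exists_prime_and_dvd (n := k + 2) (by omega)
        rw [hm] at hmn ⊢
        have hm0 : 0 < m' := Nat.pos_of_ne_zero fun h => by simp [h] at hm
        have hlt : m' < k + 2 := hm ▸ lt_mul_of_one_lt_left hm0 hp.one_lt
        have hmn' : m'.Coprime n := hmn.coprime_mul_left
        have hpn : ¬ p ∣ n := hp.coprime_iff_not_dvd.1 hmn.coprime_mul_right
        have i1 : b (m' * n) = b m' * b n := ih m' hlt n hmn'
        by_cases hpN : p ∣ N
        · rw [mul_assoc, recU p hp hpN, i1, recU p hp hpN]; ring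
        · rw [mul_assoc, recT p hp hpN, i1, recT p hp hpN]
          by_cases hpm : p ∣ m'
          · have hco : (m' / p).Coprime n := hmn'.coprime_dvd_left (Nat.div_dvd_of_dvd hpm)
            have i2 : b (m' / p * n) = b (m' / p) * b n :=
              ih (m' / p) ((Nat.div_le_self _ _).trans_lt hlt) n hco
            have hdiv : m' * n / p = m' / p * n := (Nat.div_mul_right_comm hpm n).symm
            rw [if_pos (dvd_mul_of_dvd_left hpm n), if_pos hpm, hdiv, i2]; ring
          · have : ¬ p ∣ m' * n := fun h => (hp.dvd_mul.1 h).elim hpm hpn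
            rw [if_neg this, if_neg hpm]; ring
  · intro p r hp hpN
    change b (p ^ (r + 2)) = b p * b (p ^ (r + 1)) - p * b (p ^ r)
    rw [pow_succ' p (r + 1), recT p hp hpN, if_pos (dvd_pow_self p r.succ_ne_zero),
      pow_succ' p r, Nat.mul_div_cancel_left _ hp.pos]
  · intro p r hp hpN
    change b (p ^ (r + 2)) = b p * b (p ^ (r + 1))
    rw [pow_succ' p (r + 1), recU p hp hpN]

end FLTAgent.Small2
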