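import Mathlib
import Fermat.Agent.Small2.Duality
import Fermat.Prelude.Def_FormalHecke_Eigensystem

/-!
# The Deligne–Serre lifting lemma at the prime 3

`lifting`: a mod 3 eigensystem realised in the integral lattice of weight two cusp forms of level
`N` is congruent, away from `N`, to a normalised eigenform at a maximal ideal over 3. The residual
character of the integral Hecke algebra lifts to a prime of characteristic zero, which gives a
character of the complex Hecke algebra and so an eigenform by `Duality`.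
-/

set_option autoImplicit false

open CongruenceSubgroup EisensteinWeightOne

namespace FLTAgent.Small2

variable {N : ℕ}

local notation "S₂" N => CuspForm (CongruenceSubgroup.Gamma0 N) 2

lemma mem_intLattice_iff {f : S₂ N} :
    f ∈ CuspForm.intLattice N 2 ↔ ∀ n, ∃ m : ℤ, coeffL n f = m := by
  refine ⟨fun h => ?_, fun h => Submodule.subset_span h⟩
  induction h using Submodule.span_induction with
  | mem x hx => exact hx
  | zero => exact fun n => ⟨0, by simp⟩
  | add x y _ _ hx hy =>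
    intro n
    obtain ⟨a, ha⟩ := hx n
    obtain ⟨b, hb⟩ := hy n
    exact ⟨a + b, by simp [ha, hb]⟩
  | smul c x _ hx =>
    intro n
    obtain ⟨a, ha⟩ := hx n
    exact ⟨c * a, by simp [ha]⟩

lemma mem_qIntegralSet_iff {f : S₂ N} :
    f ∈ CuspForm.qIntegralSet N ↔ f ∈ CuspForm.intLattice N 2 := by
  rw [mem_intLattice_iff]
  simp only [CuspForm.qIntegralSet, Set.mem_ofPred_eq, Subring.mem_bot]
  exact forall_congr' fun n => exists_congr fun m => eq_comm

lemma three_dvd_bridgeProduct_sub (a : ℕ → ℤ) (n : ℕ) :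
    (3 : ℤ) ∣ (bridgeProduct a).coeff n - a n := by
  have key : (PowerSeries.map (Int.castRingHom (ZMod 3))) (e1Chi3In ℤ) = 1 := by
    ext n
    rcases eq_or_ne n 0 with rfl | hn
    · simp [e1Chi3In, e1Chi3]
    · simp [e1Chi3In, e1Chi3, hn, show (6 : ZMod 3) = 0 from by decide]
  have := congrArg (PowerSeries.coeff n)
    (show PowerSeries.map (Int.castRingHom (ZMod 3)) (bridgeProduct a) =
      PowerSeries.map (Int.castRingHom (ZMod 3)) (PowerSeries.mk a) by
        simp [bridgeProduct, key])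
  simp only [PowerSeries.coeff_map, PowerSeries.coeff_mk, eq_intCast] at this
  exact (ZMod.intCast_eq_intCast_iff_dvd_sub _ _ 3).1 this.symm

lemma chiNegThree_three (ℓ : ℕ) : (3 : ℤ) ∣ chiNegThree ℓ - ℓ := by
  unfold chiNegThree
  split_ifs <;> omega

variable [NeZero N]

lemma span_intLattice_eq_top (h : CuspForm.HasIntegralBasis N) :
    Submodule.span ℂ (CuspForm.intLattice N 2 : Set (S₂ N)) = ⊤ := by
  refine eq_top_iff.2 (h.ge.trans (Submodule.span_mono ?_))
  exact fun f hf => mem_qIntegralSet_iff.1 hf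

lemma finiteDimensional_of_hasIntegralBasis (h : CuspForm.HasIntegralBasis N) :
    FiniteDimensional ℂ (S₂ N) := by
  obtain ⟨s, hs⟩ := CuspForm.intLattice_fg N 2
  refine ⟨s, eq_top_iff.2 ((span_intLattice_eq_top h).ge.trans ?_)⟩
  rw [← hs]
  exact (Submodule.span_span_of_tower ℤ ℂ _).le

lemma finite_heckeAlgebra (h : CuspForm.HasIntegralBasis N) :
    Module.Finite ℤ (CuspForm.heckeAlgebra N 2 ∅) := by
  have hfg : Module.Finite ℤ (CuspForm.intLattice N 2) :=
    Module.Finite.iff_fg.2 (CuspForm.intLattice_fg N 2)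
  have : IsAddTorsionFree (S₂ N) := ⟨fun n hn x y hxy => smul_right_injective (S₂ N)
    (Nat.cast_ne_zero.mpr hn : (n : ℂ) ≠ 0) (by simpa [Nat.cast_smul_eq_nsmul] using hxy)⟩
  let F : CuspForm.heckeAlgebra N 2 ∅ →ₗ[ℤ]
      (CuspForm.intLattice N 2 →ₗ[ℤ] CuspForm.intLattice N 2) :=
    { toFun := fun t => ((t : Module.End ℂ (S₂ N)).restrictScalars ℤ).restrict
        fun x hx => CuspForm.mem_intLattice_of_mem_heckeAlgebra one_le_two t.2 hx
      map_add' := fun _ _ => rfl
      map_smul' := fun _ _ => rfl }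
  have hF : Function.Injective F := by
    intro s t hst
    apply Subtype.ext
    refine LinearMap.ext_on (span_intLattice_eq_top h) ?_
    intro x hx
    exact congrArg Subtype.val (LinearMap.congr_fun hst ⟨x, hx⟩)
  exact Module.Finite.of_injective F hF

/-- **Deligne–Serre lifting at 3.** -/
theorem lifting (h : CuspForm.HasIntegralBasis N) {a : ℕ → ℤ}
    (heig : FormalHecke.IsEigensystem
      (fun ℓ => if ℓ ∣ N then 0 else ((chiNegThree ℓ : ℤ) : ℤ)) a)
    (hreal : CuspForm.IsLatticeRealized N a) :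
    ∃ (f : S₂ N) (_ : f.IsNormalizedEigenform)
      (𝔪' : Ideal (integralClosure ℤ ℂ)), 𝔪'.IsMaximal ∧
      ((3 : ℕ) : integralClosure ℤ ℂ) ∈ 𝔪' ∧
      ∀ (ℓ : ℕ) (_ : ℓ.Prime) (_ : ¬ ℓ ∣ N),
        ∃ c : integralClosure ℤ ℂ, (c : ℂ) = ModularFormClass.qCoeff f ℓ ∧
          c - (a ℓ : integralClosure ℤ ℂ) ∈ 𝔪' := by
  have := finiteDimensional_of_hasIntegralBasis h
  obtain ⟨f, hf, af, haf, hcong⟩ := hreal
  replace hcong : ∀ n, (3 : ℤ) ∣ af n - a n := fun n => by
    simpa using dvd_add (hcong n) (three_dvd_bridgeProduct_sub a n)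
  have hfn : ∀ n, coeffL n f = (af n : ℂ) := fun n => (haf n).symm
  set A := CuspForm.heckeAlgebra N 2 ∅ with hA
  -- integer coefficients of `t f`
  have hint : ∀ (t : A) (n : ℕ), ∃ m : ℤ, coeffL n ((t : Module.End ℂ (S₂ N)) f) = m :=
    fun t => mem_intLattice_iff.1
      (CuspForm.mem_intLattice_of_mem_heckeAlgebra one_le_two t.2 (mem_qIntegralSet_iff.1 hf))
  -- `f` is an eigenform modulo three
  let P : Module.End ℂ (S₂ N) → ℤ → Prop := fun t c =>
    ∃ g ∈ CuspForm.intLattice N 2, t f = (c : ℂ) • f + (3 : ℂ) • g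
  have mkP : ∀ (t : Module.End ℂ (S₂ N)) (c : ℤ) (bn : ℕ → ℤ),
      (∀ n, coeffL n (t f) = bn n) → (∀ n, (3 : ℤ) ∣ bn n - c * af n) → P t c := by
    intro t c bn hb hd
    choose d hd using hd
    refine ⟨(3 : ℂ)⁻¹ • (t f - (c : ℂ) • f), mem_intLattice_iff.2 fun n => ⟨d n, ?_⟩, ?_⟩
    · have := congrArg (fun z : ℤ => (z : ℂ)) (hd n)
      push_cast at this
      simp only [map_smul, map_sub, smul_eq_mul, hb, hfn]
      rw [this]; ring
    · rw [smul_smul, mul_inv_cancel₀ (by norm_num : (3 : ℂ) ≠ 0), one_smul]; abel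
  have hgen : ∀ t ∈ CuspForm.heckeGenerators N 2 ∅, ∃ c, P t c := by
    rintro t (⟨ℓ, hℓ, hℓN, -, rfl⟩ | ⟨q, hqN, hq, -, rfl⟩)
    · refine ⟨a ℓ, mkP _ _ (fun n => af (ℓ * n) + if ℓ ∣ n then (ℓ : ℤ) * af (n / ℓ) else 0)
        (fun n => ?_) fun n => ?_⟩
      · rw [coeffL_T hℓ hℓN]; split_ifs <;> simp [hfn]
      · have := heig.2 ℓ hℓ n
        simp only [if_neg hℓN] at this
        refine (ZMod.intCast_zmod_eq_zero_iff_dvd _ 3).1 ?_
        have e : ∀ m, (af m : ZMod 3) = a m := fun m => by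
          rw [← sub_eq_zero, ← Int.cast_sub, ZMod.intCast_zmod_eq_zero_iff_dvd]; exact hcong m
        have ec : ((chiNegThree ℓ : ℤ) : ZMod 3) = ((ℓ : ℤ) : ZMod 3) := by
          rw [← sub_eq_zero, ← Int.cast_sub, ZMod.intCast_zmod_eq_zero_iff_dvd]
          exact chiNegThree_three ℓ
        have := congrArg (fun z : ℤ => (z : ZMod 3)) this
        split_ifs at this ⊢ <;>
          simp only [Int.cast_add, Int.cast_sub, Int.cast_mul, mul_zero, add_zero,
            e, ec] at this ⊢ <;> linear_combination this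
    · refine ⟨a q, mkP _ _ (fun n => af (q * n)) (fun n => ?_) fun n => ?_⟩
      · rw [coeffL_U hq, hfn]
      · have := heig.2 q hq n
        simp only [if_pos hqN, zero_mul, add_zero] at this
        refine (ZMod.intCast_zmod_eq_zero_iff_dvd _ 3).1 ?_
        have e : ∀ m, (af m : ZMod 3) = a m := fun m => by
          rw [← sub_eq_zero, ← Int.cast_sub, ZMod.intCast_zmod_eq_zero_iff_dvd]; exact hcong m
        simp [e, this]
  have hP : ∀ t ∈ A, ∃ c, P t c := by
    intro t ht
    induction ht using Algebra.adjoin_induction with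
    | mem x hx => exact hgen x hx
    | algebraMap r => exact ⟨r, 0, zero_mem _, by simp [Int.cast_smul_eq_zsmul]⟩
    | add x y _ _ hx hy =>
      obtain ⟨cx, gx, hgx, ex⟩ := hx
      obtain ⟨cy, gy, hgy, ey⟩ := hy
      refine ⟨cx + cy, gx + gy, add_mem hgx hgy, ?_⟩
      rw [LinearMap.add_apply, ex, ey]; push_cast; module
    | mul x y hxA _ hx hy =>
      obtain ⟨cx, gx, hgx, ex⟩ := hx
      obtain ⟨cy, gy, hgy, ey⟩ := hy
      refine ⟨cy * cx, cy • gx + x gy, add_mem (Submodule.smul_mem _ cy hgx)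
        (CuspForm.mem_intLattice_of_mem_heckeAlgebra one_le_two hxA hgy), ?_⟩
      rw [Module.End.mul_apply, ey, map_add, map_smul, map_smul, ex,
        ← Int.cast_smul_eq_zsmul ℂ cy gx]
      push_cast; module
  -- the residual character
  choose m hm using fun t : A => hint t 1
  have e : ∀ n, (af n : ZMod 3) = a n := fun n => by
    rw [← sub_eq_zero, ← Int.cast_sub, ZMod.intCast_zmod_eq_zero_iff_dvd]; exact hcong n
  have hred : ∀ (t : A) (c : ℤ), P t c → (m t : ZMod 3) = c := by
    rintro t c ⟨g, hg, eg⟩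
    obtain ⟨d, hd⟩ := mem_intLattice_iff.1 hg 1
    have : coeffL 1 ((t : Module.End ℂ (S₂ N)) f) = ((c * af 1 + 3 * d : ℤ) : ℂ) := by
      rw [eg]; simp [hfn, hd]
    rw [hm t, Int.cast_inj] at this
    rw [this]
    push_cast
    rw [e 1, heig.1, show (3 : ZMod 3) = 0 from by decide]; simp
  let φ : A →+* ZMod 3 :=
    { toFun := fun t => (m t : ZMod 3)
      map_one' := by
        rw [hred 1 1 ⟨0, zero_mem _, by simp⟩, Int.cast_one]
      map_mul' := fun s t => by
        obtain ⟨cs, gs, hgs, es⟩ := hP s s.2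
        obtain ⟨ct, gt, hgt, et⟩ := hP t t.2
        rw [hred s cs ⟨gs, hgs, es⟩, hred t ct ⟨gt, hgt, et⟩, ← Int.cast_mul, mul_comm cs ct]
        refine hred (s * t) _ ⟨ct • gs + (s : Module.End ℂ (S₂ N)) gt,
          add_mem (Submodule.smul_mem _ ct hgs)
            (CuspForm.mem_intLattice_of_mem_heckeAlgebra one_le_two s.2 hgt), ?_⟩
        rw [MulMemClass.coe_mul, Module.End.mul_apply, et, map_add, map_smul, map_smul, es,
          ← Int.cast_smul_eq_zsmul ℂ ct gs]
        push_cast; module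
      map_zero' := by
        rw [hred 0 0 ⟨0, zero_mem _, by simp⟩, Int.cast_zero]
      map_add' := fun s t => by
        have : coeffL 1 (((s + t : A) : Module.End ℂ (S₂ N)) f) = ((m s + m t : ℤ) : ℂ) := by
          simp [hm]
        rw [hm, Int.cast_inj] at this
        rw [this, Int.cast_add] }
  have φ_apply : ∀ t : A, φ t = (m t : ZMod 3) := fun _ => rfl
  have hmax : (RingHom.ker φ).IsMaximal :=
    RingHom.ker_isMaximal_of_surjective φ (ZMod.ringHom_surjective φ)
  -- characters of the complex Hecke algebra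
  have : IsMulCommutative (heckeC N) := ⟨⟨fun s t => Subtype.ext (heckeC_comm s.2 t.2)⟩⟩
  let : CommRing (heckeC N) :=
    { (inferInstance : Ring (heckeC N)) with mul_comm := IsMulCommutative.is_comm.comm }
  have : IsArtinianRing (heckeC N) := IsArtinianRing.of_finite ℂ _
  let ι : A →+* heckeC N :=
    { toFun := fun t => ⟨t, heckeAlgebra_subset_heckeC t.2⟩
      map_one' := rfl
      map_mul' := fun _ _ => rfl
      map_zero' := rfl
      map_add' := fun _ _ => rfl }
  have : Fintype (MaximalSpectrum (heckeC N)) := Fintype.ofFinite _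
  have hle : ∃ M : MaximalSpectrum (heckeC N), M.asIdeal.comap ι ≤ RingHom.ker φ := by
    have hinf : Finset.univ.inf (fun M : MaximalSpectrum (heckeC N) => M.asIdeal.comap ι) ≤
        RingHom.ker φ := by
      intro t ht
      rw [Submodule.mem_finsetInf] at ht
      have hnil : IsNilpotent (ι t) := by
        rw [← mem_nilradical, nilradical_eq_sInf, Ideal.mem_sInf]
        intro I hI
        have : I.IsPrime := hI
        exact ht ⟨I, IsArtinianRing.isMaximal_of_isPrime I⟩ (Finset.mem_univ _)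
      obtain ⟨k, hk⟩ := hnil
      have : t ^ k = 0 := by
        apply Subtype.ext
        simpa [ι] using congrArg Subtype.val hk
      exact hmax.isPrime.mem_of_pow_mem k (this ▸ zero_mem _)
    obtain ⟨M, -, hM⟩ := hmax.isPrime.inf_le'.1 hinf
    exact ⟨M, hM⟩
  obtain ⟨M, hM⟩ := hle
  have := M.isMaximal
  let : Field (heckeC N ⧸ M.asIdeal) := Ideal.Quotient.field _
  have : Module.Finite ℂ (heckeC N ⧸ M.asIdeal) :=
    Module.Finite.of_surjective (Ideal.Quotient.mkₐ ℂ M.asIdeal).toLinearMap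
      Ideal.Quotient.mk_surjective
  have : Algebra.IsIntegral ℂ (heckeC N ⧸ M.asIdeal) := Algebra.IsIntegral.of_finite ℂ _
  let eC : ℂ ≃ₐ[ℂ] (heckeC N ⧸ M.asIdeal) :=
    AlgEquiv.ofBijective (Algebra.ofId ℂ _) IsAlgClosed.algebraMap_bijective_of_isIntegral
  let ψ : heckeC N →ₐ[ℂ] ℂ := eC.symm.toAlgHom.comp (Ideal.Quotient.mkₐ ℂ M.asIdeal)
  have hψ : ∀ t : A, ψ (ι t) = 0 → φ t = 0 := fun t ht => hM (by
    rw [Ideal.mem_comap, ← Ideal.Quotient.eq_zero_iff_mem]
    exact eC.symm.injective (by simpa [ψ] using ht))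
  obtain ⟨g, hg1, hg⟩ := exists_eigenform ψ
  let χ : A →+* ℂ := ψ.toRingHom.comp ι
  have hgT : ∀ p (hp : p.Prime) (hpN : ¬ p ∣ N), CuspForm.heckeTLin 2 hp hpN g =
      χ (CuspForm.heckeAlgebra.T hp hpN (Set.notMem_empty p)) • g :=
    fun p hp hpN => hg (ι (CuspForm.heckeAlgebra.T hp hpN (Set.notMem_empty p)))
  classical
  have hform : g.IsNormalizedEigenform := isNormalizedEigenform_of_eigen hg1
    (fun p => if hp : p.Prime then
      (if hpN : p ∣ N then χ (CuspForm.heckeAlgebra.U hp hpN (Set.notMem_empty p))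
        else χ (CuspForm.heckeAlgebra.T hp hpN (Set.notMem_empty p))) else 0)
    (fun p hp hpN => by simpa [hp, hpN] using hgT p hp hpN)
    (fun p hp hpN => by
      simp only [dif_pos hp, dif_pos hpN]
      exact hg (ι (CuspForm.heckeAlgebra.U hp hpN (Set.notMem_empty p))))
  -- the maximal ideal upstairs
  have := finite_heckeAlgebra h
  have hchiint : ∀ t : A, χ t ∈ integralClosure ℤ ℂ := fun t =>
    map_isIntegral_int χ ((Algebra.IsIntegral.of_finite ℤ A).isIntegral t)
  let χ' : A →+* integralClosure ℤ ℂ := χ.codRestrict (integralClosure ℤ ℂ).toSubring hchiint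
  let : Algebra A (integralClosure ℤ ℂ) := χ'.toAlgebra
  have : IsScalarTower ℤ A (integralClosure ℤ ℂ) :=
    IsScalarTower.of_algebraMap_eq fun x => by simp
  have : Algebra.IsIntegral A (integralClosure ℤ ℂ) := Algebra.IsIntegral.tower_top ℤ
  obtain ⟨Q, hQ, hQc⟩ := Ideal.exists_ideal_over_prime_of_isIntegral_of_isDomain
    (S := integralClosure ℤ ℂ) (RingHom.ker φ) (fun t ht => by
      refine hψ t ?_
      exact congrArg Subtype.val (RingHom.mem_ker.1 ht))
  have := hQ
  have hQmax : Q.IsMaximal :=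
    Ideal.isMaximal_of_isIntegral_of_isMaximal_comap Q (by rw [hQc]; exact hmax)
  have hQmem : ∀ t : A, φ t = 0 → χ' t ∈ Q := fun t ht => by
    have : t ∈ Q.comap (algebraMap A (integralClosure ℤ ℂ)) := hQc ▸ ht
    exact this
  refine ⟨g, hform, Q, hQmax, ?_, fun ℓ hℓ hℓN => ?_⟩
  · have := hQmem ((3 : ℕ) : A) (by rw [map_natCast]; decide)
    rwa [map_natCast] at this
  · set T := CuspForm.heckeAlgebra.T hℓ hℓN (Set.notMem_empty ℓ) (k := 2) with hT
    refine ⟨χ' T, ?_, ?_⟩
    · change χ T = coeffL ℓ g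
      have := congrArg (coeffL 1) (hgT ℓ hℓ hℓN)
      rw [coeffL_T, mul_one, if_neg hℓ.not_dvd_one, add_zero, map_smul, hg1, smul_eq_mul,
        mul_one] at this
      exact this.symm
    · have h0 : φ (T - (a ℓ : A)) = 0 := by
        rw [map_sub, map_intCast, sub_eq_zero, φ_apply]
        have hmT := hm T
        rw [CuspForm.heckeAlgebra.coe_T, coeffL_T, mul_one, if_neg hℓ.not_dvd_one, add_zero,
          hfn, Int.cast_inj] at hmT
        rw [← hmT, e]
      simpa using hQmem _ h0

end FLTAgent.Small2
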