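import Mathlib
import Fermat.Prelude.Thm_ModularForm_sturm_bound_Gamma0
import Fermat.Prelude.Thm_CongruenceSubgroup_one_mem_strictPeriods_Gamma0

/-!
# Vanishing of weight two cusp forms of small index

`cuspForm_eq_zero_of_small_index`: if the index of `Γ₀(N)` is at most 5 then there are no nonzero
weight two cusp forms, by the Sturm bound; `index_Gamma0_two_le` bounds the index for level 2.
-/

set_option autoImplicit false

open CongruenceSubgroup UpperHalfPlane MatrixGroups

namespace FLTAgent.Small2

private def rep : Fin 3 → SL(2, ℤ)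
  | 0 => 1
  | 1 => ModularGroup.S
  | 2 => ⟨!![1, 0; 1, 1], by simp [Matrix.det_fin_two_of]⟩

lemma index_Gamma0_two_le : (Gamma0 2).index ≤ 3 := by
  have hsurj : Function.Surjective (fun i : Fin 3 => (rep i : SL(2, ℤ) ⧸ Gamma0 2)) := by
    intro x
    induction x using QuotientGroup.induction_on with
    | _ g =>
      have key : ∀ r : SL(2, ℤ), ((r : SL(2, ℤ) ⧸ Gamma0 2) = (g : SL(2, ℤ) ⧸ Gamma0 2)) ↔
          ((r 0 0 * g 1 0 - r 1 0 * g 0 0 : ℤ) : ZMod 2) = 0 := by
        intro r
        rw [QuotientGroup.eq, Gamma0_mem]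
        have : (r⁻¹ * g) 1 0 = r 0 0 * g 1 0 - r 1 0 * g 0 0 := by
          simp [Matrix.SpecialLinearGroup.coe_inv, Matrix.adjugate_fin_two, Matrix.mul_apply,
            Fin.sum_univ_two]
          ring
        rw [this]
      have hz : ∀ a c : ZMod 2, c = 0 ∨ a = 0 ∨ c - a = 0 := by decide
      rcases hz (g 0 0 : ℤ) (g 1 0 : ℤ) with h | h | h
      · exact ⟨0, (key _).2 (by simpa [rep] using h)⟩
      · exact ⟨1, (key _).2 (by simpa [rep, ModularGroup.S] using h)⟩
      · exact ⟨2, (key _).2 (by simpa [rep] using h)⟩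
  simpa [Subgroup.index] using Nat.card_le_card_of_surjective _ hsurj

/-- No nonzero weight two cusp forms when the index is at most 5. -/
lemma cuspForm_eq_zero_of_small_index (N : ℕ) [NeZero N] (hN : (Gamma0 N).index ≤ 5)
    (f : CuspForm (Gamma0 N) 2) : f = 0 := by
  have h := ModularForm.sturm_bound_Gamma0 N (CuspForm.toModularFormₗ f) (by
    intro n hn
    have hb : ((2 : ℤ) * ((Gamma0 N).index : ℤ)).toNat / 12 = 0 := by omega
    obtain rfl : n = 0 := by omega
    exact CuspFormClass.qExpansion_coeff_zero f one_pos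
      (CongruenceSubgroup.one_mem_strictPeriods_Gamma0 N))
  exact CuspForm.toModularFormₗ_injective (by rw [h, map_zero])

end FLTAgent.Small2
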